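import Mathlib
import Fermat.Agent.S24.Hurwitz.FunctionField
import Fermat.Prelude.Def_AlgebraicCurve_Repartitions

/-!
# JT3 / node T0a (Riemann's theorem), part 1: charts and weak approximation

`F` is a field over an algebraically closed field `K` (any characteristic) possessing a
*separating generator* `x`: `x` is transcendental over `K` and `F` is finite separable over
`K(x)`.  For such an `x` the integral closure of `K[x]` in `F` is a Dedekind domain whose nonzero
primes are the places of `F` at which `x` is regular (S24 `hw_` library).  We deduce: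

* `rt_exists_chart`: finitely many places are regular for a common separating generator;
* `rt_weak_approx`: weak approximation at finitely many places;
* `rt_exists_ord_eq`: elements with prescribed orders at finitely many places;
* `rt_const_of_forall_mem`: an element without poles is constant.
-/

set_option autoImplicit false
set_option linter.unusedSectionVars false
set_option linter.style.haveILetI false

namespace Fermat.Agent.JT3

open AlgebraicCurve IntermediateField Polynomial WithZero IsDedekindDomain Fermat.Agent.S24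
open scoped IntermediateField.algebraAdjoinAdjoin

universe u v
variable {K : Type u} {F : Type v} [Field K] [Field F] [Algebra K F]

variable (K) in
/-- `y` is a separating generator of the function field `F / K`. -/
def rt_IsSepGen (y : F) : Prop :=
  Transcendental K y ∧ FiniteDimensional K⟮y⟯ F ∧ Algebra.IsSeparable K⟮y⟯ F

theorem rt_IsSepGen.of_adjoin_eq {y z : F} (hy : rt_IsSepGen K y) (h : K⟮z⟯ = K⟮y⟯)
    (hz : Transcendental K z) : rt_IsSepGen K z := by
  obtain ⟨_, h1, h2⟩ := hy
  refine ⟨hz, ?_, ?_⟩
  · rw [h]; exact h1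
  · rw [h]; exact h2

theorem rt_adjoin_inv (y : F) : K⟮y⁻¹⟯ = K⟮y⟯ := by
  apply le_antisymm
  · rw [adjoin_simple_le_iff]
    exact inv_mem (mem_adjoin_simple_self K y)
  · rw [adjoin_simple_le_iff]
    have := inv_mem (mem_adjoin_simple_self K y⁻¹)
    rwa [inv_inv] at this

theorem rt_adjoin_sub_const (y : F) (c : K) : K⟮y - algebraMap K F c⟯ = K⟮y⟯ := by
  apply le_antisymm
  · rw [adjoin_simple_le_iff]
    exact sub_mem (mem_adjoin_simple_self K y) (IntermediateField.algebraMap_mem _ c)
  · rw [adjoin_simple_le_iff]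
    have := add_mem (mem_adjoin_simple_self K (y - algebraMap K F c))
      (IntermediateField.algebraMap_mem K⟮y - algebraMap K F c⟯ c)
    rwa [sub_add_cancel] at this

theorem rt_IsSepGen.inv {y : F} (hy : rt_IsSepGen K y) : rt_IsSepGen K y⁻¹ :=
  hy.of_adjoin_eq (rt_adjoin_inv y) (fun h => hy.1 (IsAlgebraic.inv_iff.mp h))

theorem rt_IsSepGen.sub_const {y : F} (hy : rt_IsSepGen K y) (c : K) :
    rt_IsSepGen K (y - algebraMap K F c) := by
  refine hy.of_adjoin_eq (rt_adjoin_sub_const y c) (fun h => hy.1 ?_)
  have := h.add (isAlgebraic_algebraMap (R := K) (A := F) c)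
  rwa [sub_add_cancel] at this

theorem rt_IsSepGen.isAlgebraic {y : F} (hy : rt_IsSepGen K y) : Algebra.IsAlgebraic K⟮y⟯ F :=
  have := hy.2.1
  inferInstance

/-! ### The chart of a separating generator -/

section chart

variable {y : F} (hy : rt_IsSepGen K y)

include hy

theorem rt_chart_isDedekindDomain :
    IsDedekindDomain (integralClosure (Algebra.adjoin K ({y} : Set F)) F) := by
  have := hy.2.1
  have := hy.2.2
  have hPID := hw_isPrincipalIdealRing_adjoin hy.1
  exact integralClosure.isDedekindDomain (Algebra.adjoin K ({y} : Set F)) K⟮y⟯ F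

theorem rt_chart_isFractionRing :
    IsFractionRing (integralClosure (Algebra.adjoin K ({y} : Set F)) F) F := by
  have := hy.2.1
  exact integralClosure.isFractionRing_of_finite_extension K⟮y⟯ F

end chart

/-! ### A common chart for finitely many places -/

section moebius

variable [IsAlgClosed K]

theorem rt_exists_chart {x : F} (hx : rt_IsSepGen K x) (s : Finset (Place K F)) :
    ∃ y : F, rt_IsSepGen K y ∧ ∀ v ∈ s, y ∈ v.toValuationSubring := by
  classical
  have := hx.isAlgebraic
  -- the finitely many constants `c` such that `x - c` vanishes at some place of `s`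
  let bad : Place K F → K := fun v =>
    if h : ∃ c : K, 0 < v.ord (x - algebraMap K F c) then h.choose else 0
  obtain ⟨c, hc⟩ := Infinite.exists_notMem_finset (s.image bad)
  have hne : x - algebraMap K F c ≠ 0 := by
    intro h
    apply (hx.sub_const c).1
    rw [h]
    exact isAlgebraic_zero
  refine ⟨(x - algebraMap K F c)⁻¹, (hx.sub_const c).inv, fun v hv => ?_⟩
  rw [hw_mem_iff_ord_nonneg v (inv_ne_zero hne), v.ord_inv]
  by_contra hpos
  push Not at hpos
  have hpos' : 0 < v.ord (x - algebraMap K F c) := by omega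
  apply hc
  rw [Finset.mem_image]
  refine ⟨v, hv, ?_⟩
  have hex : ∃ c : K, 0 < v.ord (x - algebraMap K F c) := ⟨c, hpos'⟩
  show (if h : ∃ c : K, 0 < v.ord (x - algebraMap K F c) then h.choose else 0) = c
  rw [dif_pos hex]
  by_contra hcc
  have h1 := hex.choose_spec
  set c' := hex.choose with hc'
  have hne' : x - algebraMap K F c' ≠ 0 := by
    intro h
    apply (hx.sub_const c').1
    rw [h]
    exact isAlgebraic_zero
  have hdiff : (x - algebraMap K F c) + -(x - algebraMap K F c') = algebraMap K F (c' - c) := by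
    rw [map_sub]; ring
  have hcc' : algebraMap K F (c' - c) ≠ 0 := by
    rw [Ne, map_eq_zero, sub_eq_zero]; exact hcc
  have h2 := hw_ord_add_ge v hne (neg_ne_zero.mpr hne') (by rw [hdiff]; exact hcc')
  rw [hdiff, hw_ord_algebraMap, hw_ord_neg] at h2
  rcases min_le_iff.mp h2 with h | h <;> omega

end moebius

/-! ### Weak approximation -/

section approx

variable [IsAlgClosed K]

/-- Weak approximation at finitely many places regular for one chart. -/
theorem rt_weak_approx_chart {y : F} (hy : rt_IsSepGen K y) (s : Finset (Place K F))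
    (hs : ∀ v ∈ s, y ∈ v.toValuationSubring) (a : Place K F → F) (n : Place K F → ℤ) :
    ∃ f : F, ∀ v ∈ s, v.adicValuation (f - a v) ≤ exp (-(n v)) := by
  classical
  haveI := rt_chart_isDedekindDomain hy
  haveI := rt_chart_isFractionRing hy
  set B := integralClosure (Algebra.adjoin K ({y} : Set F)) F with hB
  have hmem : ∀ v ∈ s, ∀ b : B, algebraMap B F b ∈ v.toValuationSubring :=
    fun v hv b => hw_coe_mem_of_mem_integralClosure y v (hs v hv) b
  let Q : ∀ v, v ∈ s → HeightOneSpectrum B := fun v hv => hw_primeOfPlace v (hmem v hv)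
  have hQ : ∀ v (hv : v ∈ s), hw_placeOfPrime (K := K) (F := F) B (Q v hv) = v :=
    fun v hv => hw_placeOfPrime_primeOfPlace v (hmem v hv)
  have hval : ∀ v (hv : v ∈ s), v.adicValuation = (Q v hv).valuation F := by
    intro v hv
    conv_lhs => rw [← hQ v hv]
    exact hw_placeOfPrime_adicValuation B (Q v hv)
  -- a common denominator
  obtain ⟨d, hd⟩ := IsLocalization.exist_integer_multiples_of_finset (nonZeroDivisors B)
    (s.image a)
  have hd0 : algebraMap B F (d : B) ≠ 0 := by
    rw [Ne, FaithfulSMul.algebraMap_eq_zero_iff]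
    exact nonZeroDivisors.ne_zero d.2
  have hnum : ∀ v : s, ∃ b : B, algebraMap B F b = algebraMap B F (d : B) * a v := by
    intro v
    obtain ⟨b, hb⟩ := hd (a v) (Finset.mem_image_of_mem a v.2)
    exact ⟨b, by rw [hb, Algebra.smul_def]⟩
  choose num hnum using hnum
  let e : Place K F → ℕ := fun v => (n v + v.ord (algebraMap B F (d : B))).toNat
  let P : Place K F → Ideal B := fun v => if hv : v ∈ s then (Q v hv).asIdeal else ⊤
  have hP : ∀ v (hv : v ∈ s), P v = (Q v hv).asIdeal := fun v hv => dif_pos hv
  obtain ⟨b, hb⟩ := IsDedekindDomain.exists_forall_sub_mem_ideal P e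
    (fun v hv => by rw [hP v hv]; exact (Q v hv).prime)
    (fun v hv w hw hvw h => by
      rw [hP v hv, hP w hw] at h
      apply hvw
      rw [← hQ v hv, ← hQ w hw, HeightOneSpectrum.ext h])
    num
  refine ⟨algebraMap B F b / algebraMap B F (d : B), fun v hv => ?_⟩
  have h1 : algebraMap B F b / algebraMap B F (d : B) - a v =
      algebraMap B F (b - num ⟨v, hv⟩) / algebraMap B F (d : B) := by
    rw [map_sub, hnum ⟨v, hv⟩]
    field_simp
  have h2 : (Q v hv).intValuation (b - num ⟨v, hv⟩) ≤ exp (-(e v : ℤ)) := by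
    rw [HeightOneSpectrum.intValuation_le_pow_iff_mem, ← hP v hv]
    exact hb v hv
  have h3 : (Q v hv).valuation F (algebraMap B F (d : B)) =
      exp (-(v.ord (algebraMap B F (d : B)))) := by
    rw [← hval v hv]
    exact hw_adicValuation_eq_exp v hd0
  rw [h1, hval v hv, map_div₀, HeightOneSpectrum.valuation_of_algebraMap, h3,
    div_le_iff₀ (by simp), ← exp_add]
  refine h2.trans ?_
  rw [exp_le_exp]
  have : n v + v.ord (algebraMap B F (d : B)) ≤ (e v : ℤ) := Int.self_le_toNat _
  omega

/-- **Weak approximation**: for finitely many places `v ∈ s`, elements `a v` of `F` and integers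
`n v` there is `f` with `ord_v (f - a v) ≥ n v` for all `v ∈ s` (stated with valuations). -/
theorem rt_weak_approx {x : F} (hx : rt_IsSepGen K x) (s : Finset (Place K F))
    (a : Place K F → F) (n : Place K F → ℤ) :
    ∃ f : F, ∀ v ∈ s, v.adicValuation (f - a v) ≤ exp (-(n v)) := by
  obtain ⟨y, hy, hys⟩ := rt_exists_chart hx s
  exact rt_weak_approx_chart hy s hys a n

/-- A uniformizer at a place. -/
theorem rt_exists_ord_eq_one (v : Place K F) : ∃ t : F, t ≠ 0 ∧ v.ord t = 1 := by
  obtain ⟨π, hπ⟩ := IsDiscreteValuationRing.exists_irreducible v.toValuationSubring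
  refine ⟨(π : F), ?_, v.ord_coe_irreducible hπ⟩
  simpa using hπ.ne_zero

/-- Elements with prescribed orders at finitely many places. -/
theorem rt_exists_ord_eq {x : F} (hx : rt_IsSepGen K x) (s : Finset (Place K F))
    (n : Place K F → ℤ) : ∃ f : F, f ≠ 0 ∧ ∀ v ∈ s, v.ord f = n v := by
  classical
  have huni : ∀ v : Place K F, ∃ t : F, t ≠ 0 ∧ v.ord t = 1 := rt_exists_ord_eq_one
  choose t ht0 ht using huni
  obtain ⟨f, hf⟩ := rt_weak_approx hx s (fun v => t v ^ n v) (fun v => n v + 1)
  have key : ∀ v ∈ s, v.adicValuation f = exp (-(n v)) := by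
    intro v hv
    have hne : t v ^ n v ≠ 0 := zpow_ne_zero _ (ht0 v)
    have hta : v.adicValuation (t v ^ n v) = exp (-(n v)) := by
      rw [hw_adicValuation_eq_exp v hne, v.ord_zpow, ht v, mul_one]
    have hlt : v.adicValuation (f - t v ^ n v) < v.adicValuation (t v ^ n v) := by
      refine (hf v hv).trans_lt ?_
      rw [hta, exp_lt_exp]
      omega
    rw [Valuation.map_eq_of_sub_lt _ hlt, hta]
  by_cases hs : s.Nonempty
  · obtain ⟨v₀, hv₀⟩ := hs
    have hf0 : f ≠ 0 := by
      intro h
      have := key v₀ hv₀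
      rw [h, map_zero] at this
      exact exp_ne_zero this.symm
    refine ⟨f, hf0, fun v hv => ?_⟩
    have := key v hv
    rw [hw_adicValuation_eq_exp v hf0, exp_inj] at this
    omega
  · rw [Finset.not_nonempty_iff_eq_empty] at hs
    exact ⟨1, one_ne_zero, fun v hv => by simp [hs] at hv⟩

end approx

/-! ### Elements without poles are constant -/

section constants

/-- `K[y] ∩ K[y⁻¹] = K` for transcendental `y`. -/
theorem rt_mem_adjoin_inter {y : F} (hy : Transcendental K y) {a : F}
    (h1 : a ∈ Algebra.adjoin K ({y} : Set F)) (h2 : a ∈ Algebra.adjoin K ({y⁻¹} : Set F)) :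
    ∃ c : K, a = algebraMap K F c := by
  rw [Algebra.adjoin_singleton_eq_range_aeval] at h1 h2
  obtain ⟨p, hp1⟩ := h1
  obtain ⟨q, hq1⟩ := h2
  have hp2 : aeval y p = a := hp1
  have hq : aeval y⁻¹ q = aeval y p := hq1.trans hp2.symm
  subst hp2
  clear hp1 hq1
  have hy0 : y ≠ 0 := by
    rintro rfl
    exact hy isAlgebraic_zero
  letI : Invertible y := invertibleOfNonzero hy0
  set N := q.natDegree with hN
  have hdeg : (reflect N q).natDegree ≤ N := by
    have := natDegree_reflect_le (N := N) (p := q)
    rwa [max_self] at this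
  have h3 : eval₂ (algebraMap K F) (⅟y) (reflect N (reflect N q)) * y ^ N =
      eval₂ (algebraMap K F) y (reflect N q) :=
    eval₂_reflect_mul_pow (algebraMap K F) y N (reflect N q) hdeg
  rw [reflect_reflect, invOf_eq_inv] at h3
  -- `p * X ^ N = reflect N q`
  have h4 : aeval y (p * X ^ N) = aeval y (reflect N q) := by
    rw [map_mul, map_pow, aeval_X, ← hq]
    exact h3
  have h5 : p * X ^ N = reflect N q := transcendental_iff_injective.mp hy h4
  by_cases hp : p = 0
  · exact ⟨0, by rw [hp]; simp⟩
  have h6 : (p * X ^ N).natDegree = p.natDegree + N := by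
    rw [natDegree_mul_X_pow N hp]
  rw [h5] at h6
  have h7 : p.natDegree = 0 := by omega
  obtain ⟨c, hc⟩ := natDegree_eq_zero.mp h7
  exact ⟨c, by rw [← hc, aeval_C]⟩

/-- Transport of minimal polynomials along an equality of intermediate fields. -/
theorem rt_minpoly_map_eq_of_eq (f : F) {L L' : IntermediateField K F} (h : L' = L) :
    (minpoly L' f).map (algebraMap L' F) = (minpoly L f).map (algebraMap L F) := by
  subst h
  rfl

/-- An element integral over `K[y]` and over `K[y⁻¹]` is algebraic over `K`. -/
theorem rt_isAlgebraic_of_isIntegral_both {y : F} (hy : Transcendental K y) (f : F)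
    (h1 : IsIntegral (Algebra.adjoin K ({y} : Set F)) f)
    (h2 : IsIntegral (Algebra.adjoin K ({y⁻¹} : Set F)) f) : IsAlgebraic K f := by
  have hy' : Transcendental K y⁻¹ := fun h => hy (IsAlgebraic.inv_iff.mp h)
  have hP1 := hw_isPrincipalIdealRing_adjoin hy
  have hP2 := hw_isPrincipalIdealRing_adjoin hy'
  have e1 : minpoly K⟮y⟯ f =
      (minpoly (Algebra.adjoin K ({y} : Set F)) f).map
        (algebraMap (Algebra.adjoin K ({y} : Set F)) K⟮y⟯) :=
    minpoly.isIntegrallyClosed_eq_field_fractions' K⟮y⟯ h1
  have e2 : minpoly K⟮y⁻¹⟯ f =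
      (minpoly (Algebra.adjoin K ({y⁻¹} : Set F)) f).map
        (algebraMap (Algebra.adjoin K ({y⁻¹} : Set F)) K⟮y⁻¹⟯) :=
    minpoly.isIntegrallyClosed_eq_field_fractions' K⟮y⁻¹⟯ h2
  set P : F[X] := (minpoly K⟮y⟯ f).map (algebraMap K⟮y⟯ F) with hP
  have hP1' : P = (minpoly (Algebra.adjoin K ({y} : Set F)) f).map
      (algebraMap (Algebra.adjoin K ({y} : Set F)) F) := by
    rw [hP, e1, Polynomial.map_map]
    rfl
  have hP2' : P = (minpoly (Algebra.adjoin K ({y⁻¹} : Set F)) f).map
      (algebraMap (Algebra.adjoin K ({y⁻¹} : Set F)) F) := by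
    rw [hP, ← rt_minpoly_map_eq_of_eq f (rt_adjoin_inv y), e2, Polynomial.map_map]
    rfl
  -- the coefficients of `P` are constants
  have hcoef : ∀ i, P.coeff i ∈ (algebraMap K F).range := by
    intro i
    have c1 : P.coeff i ∈ Algebra.adjoin K ({y} : Set F) := by
      rw [hP1', coeff_map]
      exact ((minpoly (Algebra.adjoin K ({y} : Set F)) f).coeff i).2
    have c2 : P.coeff i ∈ Algebra.adjoin K ({y⁻¹} : Set F) := by
      rw [hP2', coeff_map]
      exact ((minpoly (Algebra.adjoin K ({y⁻¹} : Set F)) f).coeff i).2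
    obtain ⟨c, hc⟩ := rt_mem_adjoin_inter hy c1 c2
    exact ⟨c, hc.symm⟩
  have hlift : P ∈ Polynomial.lifts (algebraMap K F) :=
    (Polynomial.lifts_iff_coeff_lifts P).mpr fun i => hcoef i
  obtain ⟨P₀, hP₀⟩ := (Polynomial.mem_lifts P).mp hlift
  have hint : IsIntegral K⟮y⟯ f := by
    have := h1.tower_top (A := K⟮y⟯)
    exact this
  have hPne : P ≠ 0 := by
    rw [hP, Ne, Polynomial.map_eq_zero]
    exact minpoly.ne_zero hint
  refine ⟨P₀, fun h0 => hPne (by rw [← hP₀, h0, Polynomial.map_zero]), ?_⟩
  rw [aeval_def, ← eval_map, hP₀, hP, eval_map, ← aeval_def, minpoly.aeval]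

/-- An element regular at all places at which the separating generator `y` is regular is integral
over `K[y]`. -/
theorem rt_isIntegral_of_forall_mem {y : F} (hy : rt_IsSepGen K y) (f : F)
    (hf : ∀ v : Place K F, y ∈ v.toValuationSubring → f ∈ v.toValuationSubring) :
    IsIntegral (Algebra.adjoin K ({y} : Set F)) f := by
  have := rt_chart_isDedekindDomain hy
  have := rt_chart_isFractionRing hy
  set B := integralClosure (Algebra.adjoin K ({y} : Set F)) F with hB
  have hyB : y ∈ B := by
    have h : IsIntegral (Algebra.adjoin K ({y} : Set F))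
        (algebraMap (Algebra.adjoin K ({y} : Set F)) F ⟨y, Algebra.self_mem_adjoin_singleton K y⟩) :=
      isIntegral_algebraMap
    exact h
  have hval : ∀ Q : HeightOneSpectrum B, Q.valuation F f ≤ 1 := by
    intro Q
    have h1 : y ∈ (hw_placeOfPrime (K := K) (F := F) B Q).toValuationSubring :=
      hw_placeOfPrime_algebraMap_mem B Q ⟨y, hyB⟩
    have h2 := hf _ h1
    rw [hw_placeOfPrime_toValuationSubring] at h2
    exact (Valuation.mem_valuationSubring_iff _ _).mp h2
  obtain ⟨b, hb⟩ := HeightOneSpectrum.mem_integers_of_valuation_le_one F f hval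
  rw [← hb]
  exact b.2

variable [IsAlgClosed K]

/-- **An element without poles is constant.** -/
theorem rt_const_of_forall_mem {x : F} (hx : rt_IsSepGen K x) (f : F)
    (hf : ∀ v : Place K F, f ∈ v.toValuationSubring) : ∃ c : K, f = algebraMap K F c := by
  have h1 := rt_isIntegral_of_forall_mem hx f (fun v _ => hf v)
  have h2 := rt_isIntegral_of_forall_mem hx.inv f (fun v _ => hf v)
  have halg := rt_isAlgebraic_of_isIntegral_both hx.1 f h1 h2
  rcases hw_const_or_transcendental (K := K) f with h | h
  · exact h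
  · exact absurd halg h

end constants

end Fermat.Agent.JT3
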