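import Mathlib
import Fermat.Agent.JT3.Riemann.Approx

/-!
# JT3 / node T0a (Riemann's theorem), part 2: the spaces `L(D)`

`F / K` a function field with a separating generator `x` over an algebraically closed field `K`
(any characteristic).  All places have degree one.

* `rt_L_zero_eq`, `rt_finrank_L_zero`: `L(0) = K`;
* `rt_L_step`: `L(D + v) ≤ L(D) ⊔ K g`;
* `rt_L_finite`: `L(D)` is finite dimensional;
* `rt_l_le_of_le`: `A ≤ B → l(B) ≤ l(A) + deg B - deg A`;
* `rt_l_le_deg_add_one`: `0 ≤ D → l(D) ≤ deg D + 1`.
-/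

set_option autoImplicit false
set_option linter.unusedSectionVars false
set_option linter.style.haveILetI false

namespace Fermat.Agent.JT3

open AlgebraicCurve IntermediateField Polynomial WithZero IsDedekindDomain Fermat.Agent.S24

universe u v
variable {K : Type u} {F : Type v} [Field K] [Field F] [Algebra K F]

/-! ### Generalities -/

theorem rt_L_mono {D D' : Divisor K F} (h : D ≤ D') :
    riemannRochSpace D ≤ riemannRochSpace D' := fun _ hf v =>
  (hf v).trans (exp_le_exp.mpr (Finsupp.le_def.mp h v))

theorem rt_mem_L_iff {D : Divisor K F} {f : F} (hf : f ≠ 0) :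
    f ∈ riemannRochSpace D ↔ ∀ v : Place K F, -D v ≤ v.ord f := by
  rw [mem_riemannRochSpace_iff]
  exact forall_congr' fun v => by rw [or_iff_right hf]

theorem rt_mem_L_zero_iff {f : F} :
    f ∈ riemannRochSpace (0 : Divisor K F) ↔ ∀ v : Place K F, f ∈ v.toValuationSubring := by
  rcases eq_or_ne f 0 with rfl | hf
  · exact ⟨fun _ v => zero_mem _, fun _ => zero_mem _⟩
  · rw [rt_mem_L_iff hf]
    refine forall_congr' fun v => ?_
    rw [hw_mem_iff_ord_nonneg v hf, Finsupp.zero_apply, neg_zero]

theorem rt_algebraMap_mem_L {D : Divisor K F} (hD : 0 ≤ D) (c : K) :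
    algebraMap K F c ∈ riemannRochSpace D := by
  apply rt_L_mono hD
  rw [rt_mem_L_zero_iff]
  exact fun v => v.algebraMap_mem' c

section main

variable [IsAlgClosed K] {x : F} (hx : rt_IsSepGen K x)

include hx

/-! ### `L(0) = K` -/

theorem rt_L_zero_eq :
    riemannRochSpace (0 : Divisor K F) = LinearMap.range (Algebra.linearMap K F) := by
  ext f
  rw [rt_mem_L_zero_iff, LinearMap.mem_range]
  constructor
  · intro h
    obtain ⟨c, hc⟩ := rt_const_of_forall_mem hx f h
    exact ⟨c, hc.symm⟩
  · rintro ⟨c, rfl⟩ v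
    exact v.algebraMap_mem' c

theorem rt_finrank_L_zero : Module.finrank K (riemannRochSpace (0 : Divisor K F)) = 1 := by
  rw [rt_L_zero_eq hx, LinearMap.finrank_range_of_inj, Module.finrank_self]
  exact (algebraMap K F).injective

theorem rt_finite_L_zero : Module.Finite K (riemannRochSpace (0 : Divisor K F)) := by
  rw [rt_L_zero_eq hx]
  infer_instance

/-! ### Degrees -/

theorem rt_deg_eq_one (v : Place K F) : v.deg = 1 := by
  have := hx.isAlgebraic
  exact hw_deg_eq_one x v

theorem rt_degree_eq_sum (E : Divisor K F) (S : Finset (Place K F)) (hS : E.support ⊆ S) :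
    Divisor.degree E = ∑ v ∈ S, E v := by
  have := hx.isAlgebraic
  exact hw_degree_eq_sum x E S hS

theorem rt_degree_single (v : Place K F) (n : ℤ) :
    Divisor.degree (Finsupp.single v n) = n := by
  rw [Divisor.degree_single, rt_deg_eq_one hx v]
  simp

theorem rt_degree_nonneg {E : Divisor K F} (hE : 0 ≤ E) : 0 ≤ Divisor.degree E := by
  rw [rt_degree_eq_sum hx E E.support (Finset.Subset.refl _)]
  exact Finset.sum_nonneg fun v _ => Finsupp.le_def.mp hE v

theorem rt_degree_mono {A B : Divisor K F} (h : A ≤ B) :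
    Divisor.degree A ≤ Divisor.degree B := by
  have h1 : 0 ≤ B - A := sub_nonneg.mpr h
  have h2 := rt_degree_nonneg hx h1
  rw [map_sub] at h2
  linarith

theorem rt_degree_lt_of_lt {A B : Divisor K F} (h : A ≤ B) (hne : A ≠ B) :
    Divisor.degree A < Divisor.degree B := by
  have h1 : 0 ≤ B - A := sub_nonneg.mpr h
  have h0 : B - A ≠ 0 := fun h0 => hne (sub_eq_zero.mp h0).symm
  have hsum := rt_degree_eq_sum hx (B - A) (B - A).support (Finset.Subset.refl _)
  have hpos : 0 < ∑ v ∈ (B - A).support, (B - A) v := by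
    apply Finset.sum_pos
    · intro v hv
      have h2 : (B - A) v ≠ 0 := Finsupp.mem_support_iff.mp hv
      have h3 : 0 ≤ (B - A) v := Finsupp.le_def.mp h1 v
      omega
    · rwa [Finsupp.support_nonempty_iff]
  rw [← hsum, map_sub] at hpos
  linarith

/-! ### The key step -/

theorem rt_L_step (D : Divisor K F) (v : Place K F) :
    ∃ g : F, riemannRochSpace (D + Finsupp.single v 1) ≤
      riemannRochSpace D ⊔ Submodule.span K {g} := by
  classical
  have := hx.isAlgebraic
  by_cases hex : ∃ g ∈ riemannRochSpace (D + Finsupp.single v 1), g ∉ riemannRochSpace D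
  swap
  · push Not at hex
    exact ⟨0, fun f hf => Submodule.mem_sup_left (hex f hf)⟩
  obtain ⟨g, hg1, hg2⟩ := hex
  have hg0 : g ≠ 0 := fun h => hg2 (h ▸ zero_mem _)
  have happ : ∀ w : Place K F, w ≠ v → (D + Finsupp.single v 1 : Divisor K F) w = D w := by
    intro w hw
    rw [Finsupp.add_apply, Finsupp.single_eq_of_ne hw, add_zero]
  have happv : (D + Finsupp.single v 1 : Divisor K F) v = D v + 1 := by
    rw [Finsupp.add_apply, Finsupp.single_eq_same]
  rw [rt_mem_L_iff hg0] at hg1 hg2
  -- the order of `g` at `v` is exactly `-(D v) - 1`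
  have hgv : v.ord g = -D v - 1 := by
    push Not at hg2
    obtain ⟨w, hw⟩ := hg2
    have h1 := hg1 w
    by_cases hwv : w = v
    · subst hwv
      rw [happv] at h1
      omega
    · rw [happ w hwv] at h1
      omega
  refine ⟨g, fun f hf => ?_⟩
  rcases eq_or_ne f 0 with rfl | hf0
  · exact zero_mem _
  have hf' := (rt_mem_L_iff hf0).mp hf
  -- `f / g` is regular at `v`
  have hq0 : f * g⁻¹ ≠ 0 := mul_ne_zero hf0 (inv_ne_zero hg0)
  have hqv : f * g⁻¹ ∈ v.toValuationSubring := by
    rw [hw_mem_iff_ord_nonneg v hq0, v.ord_mul hf0 (inv_ne_zero hg0), v.ord_inv, hgv]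
    have := hf' v
    rw [happv] at this
    omega
  obtain ⟨c, hc⟩ := hw_exists_const x v hqv
  have hdecomp : f = (f - c • g) + c • g := by ring
  rw [hdecomp]
  refine Submodule.add_mem _ (Submodule.mem_sup_left ?_)
    (Submodule.mem_sup_right (Submodule.smul_mem _ c (Submodule.mem_span_singleton_self g)))
  rcases eq_or_ne (f - c • g) 0 with h0 | h0
  · rw [h0]; exact zero_mem _
  have hmem : f - c • g ∈ riemannRochSpace (D + Finsupp.single v 1) :=
    Submodule.sub_mem _ hf (Submodule.smul_mem _ c ((rt_mem_L_iff hg0).mpr hg1))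
  have hmem' := (rt_mem_L_iff h0).mp hmem
  rw [rt_mem_L_iff h0]
  intro w
  by_cases hwv : w = v
  · subst hwv
    have hfac : f - c • g = g * (f * g⁻¹ - algebraMap K F c) := by
      rw [Algebra.smul_def]
      field_simp
    rcases hc with hc | hc
    · exfalso
      apply h0
      rw [hfac, hc, sub_self, mul_zero]
    · have hne : f * g⁻¹ - algebraMap K F c ≠ 0 := by
        intro h
        apply h0
        rw [hfac, h, mul_zero]
      rw [hfac, w.ord_mul hg0 hne, hgv]
      omega
  · have := hmem' w
    rwa [happ w hwv] at this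

theorem rt_L_step_finite (D : Divisor K F) (v : Place K F)
    (hD : Module.Finite K (riemannRochSpace D)) :
    Module.Finite K (riemannRochSpace (D + Finsupp.single v 1)) ∧
      Module.finrank K (riemannRochSpace (D + Finsupp.single v 1)) ≤
        Module.finrank K (riemannRochSpace D) + 1 := by
  obtain ⟨g, hg⟩ := rt_L_step hx D v
  have hfin : Module.Finite K ↥(riemannRochSpace D ⊔ Submodule.span K {g}) :=
    Submodule.finiteDimensional_sup _ _
  refine ⟨Submodule.finiteDimensional_of_le hg, ?_⟩
  calc Module.finrank K (riemannRochSpace (D + Finsupp.single v 1))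
      ≤ Module.finrank K ↥(riemannRochSpace D ⊔ Submodule.span K {g}) :=
        Submodule.finrank_mono hg
    _ ≤ Module.finrank K (riemannRochSpace D) + Module.finrank K (Submodule.span K {g}) :=
        Submodule.finrank_add_le_finrank_add_finrank _ _
    _ ≤ Module.finrank K (riemannRochSpace D) + 1 := by
        have : Module.finrank K (Submodule.span K {g}) ≤ 1 := by
          have := finrank_span_le_card (R := K) ({g} : Set F)
          simpa using this
        omega

/-! ### Finite dimensionality and the degree bound -/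

theorem rt_L_finite_aux (A : Divisor K F) (hA : Module.Finite K (riemannRochSpace A)) :
    ∀ (n : ℕ) (B : Divisor K F), A ≤ B → Divisor.degree B - Divisor.degree A = n →
      Module.Finite K (riemannRochSpace B) ∧
        Module.finrank K (riemannRochSpace B) ≤ Module.finrank K (riemannRochSpace A) + n := by
  classical
  intro n
  induction n with
  | zero =>
    intro B hAB hdeg
    have : A = B := by
      by_contra hne
      have := rt_degree_lt_of_lt hx hAB hne
      simp only [Nat.cast_zero] at hdeg
      omega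
    subst this
    exact ⟨hA, le_rfl⟩
  | succ n ih =>
    intro B hAB hdeg
    have hne : A ≠ B := by
      rintro rfl
      simp only [Nat.cast_succ] at hdeg
      omega
    obtain ⟨v, hv⟩ : ∃ v, A v < B v := by
      by_contra hcon
      push Not at hcon
      apply hne
      ext w
      exact le_antisymm (Finsupp.le_def.mp hAB w) (hcon w)
    set B' : Divisor K F := B - Finsupp.single v 1 with hB'
    have hBB' : B = B' + Finsupp.single v 1 := by rw [hB', sub_add_cancel]
    have hAB' : A ≤ B' := by
      rw [Finsupp.le_def]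
      intro w
      rw [hB', Finsupp.sub_apply]
      by_cases hwv : w = v
      · subst hwv
        rw [Finsupp.single_eq_same]
        omega
      · rw [Finsupp.single_eq_of_ne hwv, sub_zero]
        exact Finsupp.le_def.mp hAB w
    have hdeg' : Divisor.degree B' - Divisor.degree A = n := by
      rw [hB', map_sub, rt_degree_single hx]
      simp only [Nat.cast_succ] at hdeg
      omega
    obtain ⟨h1, h2⟩ := ih B' hAB' hdeg'
    obtain ⟨h3, h4⟩ := rt_L_step_finite hx B' v h1
    rw [← hBB'] at h3 h4
    exact ⟨h3, by omega⟩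

/-- **`L(D)` is finite dimensional.** -/
theorem rt_L_finite (D : Divisor K F) : Module.Finite K (riemannRochSpace D) := by
  classical
  have h0 : (0 : Divisor K F) ≤ D ⊔ 0 := le_sup_right
  have hdeg := rt_degree_nonneg hx h0
  obtain ⟨n, hn⟩ := Int.eq_ofNat_of_zero_le hdeg
  obtain ⟨h1, -⟩ := rt_L_finite_aux hx 0 (rt_finite_L_zero hx) n (D ⊔ 0) h0
    (by rw [map_zero, sub_zero, hn])
  exact Submodule.finiteDimensional_of_le (rt_L_mono (le_sup_left : D ≤ D ⊔ 0))

/-- `A ≤ B → l(B) ≤ l(A) + deg B - deg A`. -/
theorem rt_l_le_of_le {A B : Divisor K F} (hAB : A ≤ B) :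
    (Module.finrank K (riemannRochSpace B) : ℤ) ≤
      Module.finrank K (riemannRochSpace A) + (Divisor.degree B - Divisor.degree A) := by
  have hdeg : 0 ≤ Divisor.degree B - Divisor.degree A := by
    have := rt_degree_mono hx hAB
    omega
  obtain ⟨n, hn⟩ := Int.eq_ofNat_of_zero_le hdeg
  obtain ⟨-, h2⟩ := rt_L_finite_aux hx A (rt_L_finite hx A) n B hAB hn
  rw [hn]
  exact_mod_cast h2

/-- `l` is monotone. -/
theorem rt_l_mono {A B : Divisor K F} (hAB : A ≤ B) :
    Module.finrank K (riemannRochSpace A) ≤ Module.finrank K (riemannRochSpace B) := by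
  have := rt_L_finite hx B
  exact Submodule.finrank_mono (rt_L_mono hAB)

/-- `0 ≤ D → l(D) ≤ deg D + 1`. -/
theorem rt_l_le_deg_add_one {D : Divisor K F} (hD : 0 ≤ D) :
    (Module.finrank K (riemannRochSpace D) : ℤ) ≤ Divisor.degree D + 1 := by
  have := rt_l_le_of_le hx hD
  rw [rt_finrank_L_zero hx, map_zero, sub_zero] at this
  push_cast at this
  linarith

/-- `0 ≤ D → 1 ≤ l(D)`. -/
theorem rt_one_le_l {D : Divisor K F} (hD : 0 ≤ D) :
    1 ≤ Module.finrank K (riemannRochSpace D) := by
  have := rt_l_mono hx hD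
  rwa [rt_finrank_L_zero hx] at this

end main

end Fermat.Agent.JT3
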