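import Mathlib
import Fermat.Agent.JT3.Riemann.LSpace

/-!
# JT3 / node T0a (Riemann's theorem), part 3: zeros of a function

`F / K` a function field with a separating generator `x` over an algebraically closed field `K`
(any characteristic).

* `rt_sum_ord_le`: for distinct zeros `v ∈ s` of a transcendental `z`,
  `∑ v ∈ s, ord_v z ≤ [F : K(z)]` (Stichtenoth, Prop. 1.3.3);
* `rt_finite_zeros`, `rt_finite_poles`: every nonzero function has finitely many zeros and poles;
* `rt_div`: the divisor of a nonzero function.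
-/

set_option autoImplicit false
set_option linter.unusedSectionVars false
set_option linter.style.haveILetI false

namespace Fermat.Agent.JT3

open AlgebraicCurve IntermediateField Polynomial WithZero IsDedekindDomain Fermat.Agent.S24
open scoped IntermediateField.algebraAdjoinAdjoin

universe u v
variable {K : Type u} {F : Type v} [Field K] [Field F] [Algebra K F]

/-! ### Valuation-theoretic lemmas -/

theorem rt_ord_pow (v : Place K F) (f : F) (n : ℕ) : v.ord (f ^ n) = n * v.ord f := by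
  have := v.ord_zpow f (n : ℤ)
  rwa [zpow_natCast] at this

/-- A finite sum with a unique term of minimal order is nonzero. -/
theorem rt_sum_ne_zero_of_unique_min (v : Place K F) {α : Type*} [DecidableEq α] (T : Finset α)
    (G : α → F) {i₀ : α} (hi₀ : i₀ ∈ T) (h0 : G i₀ ≠ 0)
    (h : ∀ i ∈ T, i ≠ i₀ → G i = 0 ∨ v.ord (G i₀) < v.ord (G i)) :
    ∑ i ∈ T, G i ≠ 0 := by
  rw [← Finset.add_sum_erase T G hi₀]
  have hv0 : v.adicValuation (G i₀) ≠ 0 := v.adicValuation_ne_zero h0
  have hlt : v.adicValuation (∑ i ∈ T.erase i₀, G i) < v.adicValuation (G i₀) := by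
    refine Valuation.map_sum_lt _ hv0 fun i hi => ?_
    obtain ⟨hne, hiT⟩ := Finset.mem_erase.mp hi
    rcases eq_or_ne (G i) 0 with h1 | hGi
    · rw [h1, map_zero]
      exact zero_lt_iff.mpr hv0
    · have h1 := (h i hiT hne).resolve_left hGi
      rw [hw_adicValuation_eq_exp v h0, hw_adicValuation_eq_exp v hGi, exp_lt_exp]
      omega
  intro hsum
  have := Valuation.map_add_eq_of_lt_left v.adicValuation hlt
  rw [hsum, map_zero] at this
  exact hv0 this.symm

/-- Polynomials in a regular element are regular. -/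
theorem rt_aeval_mem (v : Place K F) {z : F} (hz : z ∈ v.toValuationSubring) (p : K[X]) :
    aeval z p ∈ v.toValuationSubring := by
  rw [aeval_eq_sum_range]
  refine sum_mem fun i _ => ?_
  rw [Algebra.smul_def]
  exact mul_mem (v.algebraMap_mem' _) (pow_mem hz i)

theorem rt_mem_of_ord_pos (v : Place K F) {z : F} (hz : 0 < v.ord z) :
    z ∈ v.toValuationSubring := by
  have hz0 : z ≠ 0 := by
    rintro rfl
    simp at hz
  rw [hw_mem_iff_ord_nonneg v hz0]
  exact hz.le

/-- A polynomial with nonzero constant term in a function vanishing at `v` is a unit at `v`. -/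
theorem rt_ord_aeval_of_coeff_zero_ne (v : Place K F) {z : F} (hz : 0 < v.ord z) {q : K[X]}
    (hq : q.coeff 0 ≠ 0) : aeval z q ≠ 0 ∧ v.ord (aeval z q) = 0 := by
  have hzmem := rt_mem_of_ord_pos v hz
  have hz0 : z ≠ 0 := by
    rintro rfl
    simp at hz
  have hdec : aeval z q = algebraMap K F (q.coeff 0) + aeval z q.divX * z := by
    conv_lhs => rw [← divX_mul_X_add q]
    rw [map_add, map_mul, aeval_X, aeval_C, add_comm]
  have hB0 : algebraMap K F (q.coeff 0) ≠ 0 := by
    rwa [Ne, map_eq_zero]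
  have hB : v.ord (algebraMap K F (q.coeff 0)) = 0 := hw_ord_algebraMap v _
  rcases eq_or_ne (aeval z q.divX * z) 0 with hA | hA
  · rw [hdec, hA, add_zero]
    exact ⟨hB0, hB⟩
  · have hA1 : aeval z q.divX ≠ 0 := left_ne_zero_of_mul hA
    have hA2 : 0 ≤ v.ord (aeval z q.divX) :=
      (hw_mem_iff_ord_nonneg v hA1).mp (rt_aeval_mem v hzmem _)
    have hlt : v.ord (algebraMap K F (q.coeff 0)) < v.ord (aeval z q.divX * z) := by
      rw [hB, v.ord_mul hA1 hz0]
      omega
    have hord := hw_ord_add_eq_of_lt v hB0 hA hlt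
    rw [← hdec, hB] at hord
    refine ⟨?_, hord⟩
    intro h0
    have h1 : algebraMap K F (q.coeff 0) = -(aeval z q.divX * z) := by
      rw [hdec] at h0
      exact eq_neg_of_add_eq_zero_left h0
    rw [h1, hw_ord_neg] at hlt
    exact lt_irrefl _ hlt

/-- The order at a zero `v` of `z` of a nonzero polynomial in `z`. -/
theorem rt_ord_aeval (v : Place K F) {z : F} (hz : 0 < v.ord z) {p : K[X]} (hp : p ≠ 0) :
    aeval z p ≠ 0 ∧ v.ord (aeval z p) = (p.rootMultiplicity 0 : ℤ) * v.ord z := by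
  have hz0 : z ≠ 0 := by
    rintro rfl
    simp at hz
  obtain ⟨q, hpq, hq⟩ := exists_eq_pow_rootMultiplicity_mul_and_not_dvd p hp 0
  rw [C_0, sub_zero] at hpq hq
  have hq0 : q.coeff 0 ≠ 0 := fun h => hq (X_dvd_iff.mpr h)
  obtain ⟨h1, h2⟩ := rt_ord_aeval_of_coeff_zero_ne v hz hq0
  have hdec : aeval z p = z ^ (p.rootMultiplicity 0) * aeval z q := by
    conv_lhs => rw [hpq]
    rw [map_mul, map_pow, aeval_X]
  have hzd : z ^ (p.rootMultiplicity 0) ≠ 0 := pow_ne_zero _ hz0
  refine ⟨by rw [hdec]; exact mul_ne_zero hzd h1, ?_⟩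
  rw [hdec, v.ord_mul hzd h1, h2, add_zero, rt_ord_pow]

/-! ### The number of zeros is bounded by the degree -/

section main

variable [IsAlgClosed K] {x : F} (hx : rt_IsSepGen K x)

include hx

/-- **Stichtenoth, Prop. 1.3.3**: for finitely many zeros `v ∈ s` of a transcendental `z`,
`∑ v ∈ s, ord_v z ≤ [F : K(z)]`. -/
theorem rt_sum_ord_le {z : F} (hz : Transcendental K z) (s : Finset (Place K F))
    (hs : ∀ v ∈ s, 0 < v.ord z) :
    ∑ v ∈ s, v.ord z ≤ (Module.finrank K⟮z⟯ F : ℤ) := by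
  classical
  have hfinx : FiniteDimensional K⟮x⟯ F := hx.2.1
  have hfin : FiniteDimensional K⟮z⟯ F := hw_finiteDimensional_adjoin x hz
  set n : Place K F → ℕ := fun v => (v.ord z).toNat with hndef
  have hn : ∀ v ∈ s, (n v : ℤ) = v.ord z := fun v hv => Int.toNat_of_nonneg (hs v hv).le
  have ht : ∀ v : Place K F, ∃ t : F, t ≠ 0 ∧ ∀ w ∈ s, w.ord t = if w = v then 1 else 0 :=
    fun v => rt_exists_ord_eq hx s _
  choose t ht0 ht using ht
  have hy : ∀ v : Place K F, ∃ y : F, y ≠ 0 ∧
      ∀ w ∈ s, w.ord y = if w = v then 0 else w.ord z :=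
    fun v => rt_exists_ord_eq hx s _
  choose y hy0 hy using hy
  let I : Finset (Σ _ : Place K F, ℕ) := s.sigma (fun v => Finset.range (n v))
  let b : ↥I → F := fun i => t i.1.1 ^ i.1.2 * y i.1.1
  have hb0 : ∀ i, b i ≠ 0 := fun i => mul_ne_zero (pow_ne_zero _ (ht0 _)) (hy0 _)
  have hbord : ∀ (i : ↥I) (k : Place K F), k ∈ s →
      k.ord (b i) = if k = i.1.1 then (i.1.2 : ℤ) else k.ord z := by
    intro i k hk
    show k.ord (t i.1.1 ^ i.1.2 * y i.1.1) = _
    rw [k.ord_mul (pow_ne_zero _ (ht0 _)) (hy0 _), rt_ord_pow, ht _ k hk, hy _ k hk]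
    split_ifs <;> simp
  have hli : LinearIndependent ↥(Algebra.adjoin K ({z} : Set F)) b := by
    rw [Fintype.linearIndependent_iff]
    intro g hg
    by_contra hcon
    push Not at hcon
    set p : ↥I → K[X] := fun i => (hw_polyEquiv hz).symm (g i) with hp
    have hpg : ∀ i, aeval z (p i) = (g i : F) := by
      intro i
      rw [← hw_polyEquiv_coe hz (p i)]
      simp [hp]
    have hp0 : ∀ i, g i ≠ 0 → p i ≠ 0 := by
      intro i hi
      simpa [hp] using hi
    set S : Finset ↥I := Finset.univ.filter (fun i => g i ≠ 0) with hS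
    have hSne : S.Nonempty := by
      obtain ⟨i, hi⟩ := hcon
      exact ⟨i, by simp [hS, hi]⟩
    obtain ⟨i₁, hi₁S, hi₁min⟩ :=
      Finset.exists_min_image S (fun i => (p i).rootMultiplicity 0) hSne
    set m := (p i₁).rootMultiplicity 0 with hm
    set k := i₁.1.1 with hk
    set S' : Finset ↥I := S.filter (fun i => i.1.1 = k ∧ (p i).rootMultiplicity 0 = m) with hS'
    have hS'ne : S'.Nonempty := ⟨i₁, Finset.mem_filter.mpr ⟨hi₁S, rfl, rfl⟩⟩
    obtain ⟨i₀, hi₀S', hi₀min⟩ := Finset.exists_min_image S' (fun i => i.1.2) hS'ne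
    have hks : k ∈ s := (Finset.mem_sigma.mp i₁.2).1
    have hkz : 0 < k.ord z := hs k hks
    obtain ⟨hi₀S, hi₀k, hi₀m⟩ : i₀ ∈ S ∧ i₀.1.1 = k ∧ (p i₀).rootMultiplicity 0 = m := by
      simpa [hS'] using hi₀S'
    have hgi₀ : g i₀ ≠ 0 := by simpa [hS] using hi₀S
    have hc : (i₀.1.2 : ℤ) < k.ord z := by
      have h1 : i₀.1.2 < n i₀.1.1 := Finset.mem_range.mp (Finset.mem_sigma.mp i₀.2).2
      rw [hi₀k] at h1
      rw [← hn k hks]
      exact_mod_cast h1
    set G : ↥I → F := fun i => g i • b i with hG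
    have hGeq : ∀ i, G i = aeval z (p i) * b i := by
      intro i
      rw [hpg]
      rfl
    have hGord : ∀ i, g i ≠ 0 → G i ≠ 0 ∧ k.ord (G i) =
        ((p i).rootMultiplicity 0 : ℤ) * k.ord z +
          if k = i.1.1 then (i.1.2 : ℤ) else k.ord z := by
      intro i hi
      obtain ⟨h1, h2⟩ := rt_ord_aeval k hkz (hp0 i hi)
      rw [hGeq]
      exact ⟨mul_ne_zero h1 (hb0 i), by rw [k.ord_mul h1 (hb0 i), h2, hbord i k hks]⟩
    have hsum : ∑ i ∈ Finset.univ, G i = 0 := hg
    refine rt_sum_ne_zero_of_unique_min k Finset.univ G (Finset.mem_univ i₀)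
      (hGord i₀ hgi₀).1 ?_ hsum
    intro i _ hne
    by_cases hgi : g i = 0
    · left
      simp [hG, hgi]
    right
    have hiS : i ∈ S := by simp [hS, hgi]
    have hmi : m ≤ (p i).rootMultiplicity 0 := hi₁min i hiS
    rw [(hGord i₀ hgi₀).2, (hGord i hgi).2, hi₀m, if_pos hi₀k.symm]
    have hmul : (m : ℤ) * k.ord z ≤ ((p i).rootMultiplicity 0 : ℤ) * k.ord z :=
      mul_le_mul_of_nonneg_right (by exact_mod_cast hmi) hkz.le
    by_cases hki : k = i.1.1
    · rw [if_pos hki]
      by_cases hdm : (p i).rootMultiplicity 0 = m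
      · have hiS' : i ∈ S' := by simp [hS', hiS, hki.symm, hdm]
        have h1 : i₀.1.2 ≤ i.1.2 := hi₀min i hiS'
        have h2 : i₀.1.2 ≠ i.1.2 := by
          intro h
          apply hne
          apply Subtype.ext
          exact Sigma.ext (hki.symm.trans hi₀k.symm) (heq_of_eq h.symm)
        rw [hdm]
        have : (i₀.1.2 : ℤ) < (i.1.2 : ℤ) := by
          exact_mod_cast lt_of_le_of_ne h1 h2
        omega
      · have hlt : m + 1 ≤ (p i).rootMultiplicity 0 := by omega
        have hmul' : ((m : ℤ) + 1) * k.ord z ≤ ((p i).rootMultiplicity 0 : ℤ) * k.ord z :=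
          mul_le_mul_of_nonneg_right (by exact_mod_cast hlt) hkz.le
        have : (0 : ℤ) ≤ (i.1.2 : ℤ) := Int.natCast_nonneg _
        nlinarith
    · rw [if_neg hki]
      omega
  have hli' : LinearIndependent K⟮z⟯ b :=
    (LinearIndependent.iff_fractionRing ↥(Algebra.adjoin K ({z} : Set F)) K⟮z⟯).1 hli
  have hcard := hli'.fintype_card_le_finrank
  rw [Fintype.card_coe, Finset.card_sigma] at hcard
  simp only [Finset.card_range] at hcard
  calc ∑ v ∈ s, v.ord z = ∑ v ∈ s, (n v : ℤ) :=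
        Finset.sum_congr rfl fun v hv => (hn v hv).symm
    _ = ((∑ v ∈ s, n v : ℕ) : ℤ) := by push_cast; rfl
    _ ≤ (Module.finrank K⟮z⟯ F : ℤ) := by exact_mod_cast hcard

/-! ### Finiteness of zeros and poles; the divisor of a function -/

omit hx in
theorem rt_transcendental_of_ord_ne_zero {z : F} {v : Place K F} (hv : v.ord z ≠ 0) :
    Transcendental K z := by
  rcases hw_const_or_transcendental (K := K) z with ⟨c, rfl⟩ | h
  · exact absurd (hw_ord_algebraMap v c) hv
  · exact h

theorem rt_finite_zeros (z : F) : {v : Place K F | 0 < v.ord z}.Finite := by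
  classical
  by_contra hinf
  have hinf' : {v : Place K F | 0 < v.ord z}.Infinite := hinf
  obtain ⟨v₀, hv₀⟩ := hinf'.nonempty
  have hz : Transcendental K z := rt_transcendental_of_ord_ne_zero (v := v₀) (ne_of_gt (show 0 < v₀.ord z from hv₀))
  obtain ⟨s, hs, hcard⟩ := hinf'.exists_subset_card_eq (Module.finrank K⟮z⟯ F + 1)
  have h1 := rt_sum_ord_le hx hz s (fun v hv => hs hv)
  have h2 : (s.card : ℤ) ≤ ∑ v ∈ s, v.ord z := by
    have : ∑ v ∈ s, (1 : ℤ) ≤ ∑ v ∈ s, v.ord z :=
      Finset.sum_le_sum fun v hv => by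
        have : 0 < v.ord z := hs hv
        omega
    simpa using this
  rw [hcard] at h2
  push_cast at h2
  omega

theorem rt_finite_poles (z : F) : {v : Place K F | v.ord z < 0}.Finite := by
  have := rt_finite_zeros hx z⁻¹
  refine this.subset fun v hv => ?_
  have hv' : v.ord z < 0 := hv
  show 0 < v.ord z⁻¹
  rw [v.ord_inv]
  omega

theorem rt_finite_support (z : F) : {v : Place K F | v.ord z ≠ 0}.Finite := by
  refine ((rt_finite_zeros hx z).union (rt_finite_poles hx z)).subset fun v hv => ?_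
  have hv' : v.ord z ≠ 0 := hv
  rcases lt_or_gt_of_ne hv' with h | h
  · exact Or.inr h
  · exact Or.inl h

/-- The divisor of a function. -/
noncomputable def rt_div (z : F) : Divisor K F :=
  Finsupp.ofSupportFinite (fun v => v.ord z) (rt_finite_support hx z)

@[simp] theorem rt_div_apply (z : F) (v : Place K F) : rt_div hx z v = v.ord z := rfl

theorem rt_div_mul {f g : F} (hf : f ≠ 0) (hg : g ≠ 0) :
    rt_div hx (f * g) = rt_div hx f + rt_div hx g := by
  ext v
  rw [Finsupp.add_apply, rt_div_apply, rt_div_apply, rt_div_apply, v.ord_mul hf hg]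

theorem rt_div_inv (f : F) : rt_div hx f⁻¹ = -rt_div hx f := by
  ext v
  rw [Finsupp.neg_apply, rt_div_apply, rt_div_apply, v.ord_inv]

theorem rt_div_algebraMap (c : K) : rt_div hx (algebraMap K F c) = 0 := by
  ext v
  rw [rt_div_apply, hw_ord_algebraMap, Finsupp.zero_apply]

theorem rt_div_isPrincipal {f : F} (hf : f ≠ 0) : Divisor.IsPrincipal (rt_div hx f) :=
  ⟨f, hf, fun _ => rfl⟩

/-- The divisor of zeros of a function. -/
noncomputable def rt_zeroDiv (z : F) : Divisor K F := rt_div hx z ⊔ 0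

/-- The divisor of poles of a function. -/
noncomputable def rt_poleDiv (z : F) : Divisor K F := (-rt_div hx z) ⊔ 0

theorem rt_zeroDiv_apply (z : F) (v : Place K F) : rt_zeroDiv hx z v = max (v.ord z) 0 := by
  rw [rt_zeroDiv, Finsupp.sup_apply, rt_div_apply, Finsupp.zero_apply]

theorem rt_poleDiv_apply (z : F) (v : Place K F) : rt_poleDiv hx z v = max (-v.ord z) 0 := by
  rw [rt_poleDiv, Finsupp.sup_apply, Finsupp.neg_apply, rt_div_apply, Finsupp.zero_apply]

theorem rt_zeroDiv_nonneg (z : F) : 0 ≤ rt_zeroDiv hx z := le_sup_right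

theorem rt_poleDiv_nonneg (z : F) : 0 ≤ rt_poleDiv hx z := le_sup_right

theorem rt_poleDiv_inv (z : F) : rt_poleDiv hx z⁻¹ = rt_zeroDiv hx z := by
  rw [rt_poleDiv, rt_div_inv, neg_neg, rt_zeroDiv]

theorem rt_zeroDiv_inv (z : F) : rt_zeroDiv hx z⁻¹ = rt_poleDiv hx z := by
  rw [rt_zeroDiv, rt_div_inv, rt_poleDiv]

theorem rt_div_eq_sub (z : F) : rt_div hx z = rt_zeroDiv hx z - rt_poleDiv hx z := by
  ext v
  rw [Finsupp.sub_apply, rt_zeroDiv_apply, rt_poleDiv_apply, rt_div_apply]
  rcases le_total (v.ord z) 0 with h | h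
  · rw [max_eq_right h, max_eq_left (by omega)]
    omega
  · rw [max_eq_left h, max_eq_right (by omega)]
    omega

/-- `deg (z)₀ ≤ [F : K(z)]`. -/
theorem rt_degree_zeroDiv_le {z : F} (hz : Transcendental K z) :
    Divisor.degree (rt_zeroDiv hx z) ≤ (Module.finrank K⟮z⟯ F : ℤ) := by
  classical
  set s := (rt_finite_zeros hx z).toFinset with hs
  have hsub : (rt_zeroDiv hx z).support ⊆ s := by
    intro v hv
    rw [Finsupp.mem_support_iff, rt_zeroDiv_apply] at hv
    rw [hs, Set.Finite.mem_toFinset]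
    show 0 < v.ord z
    by_contra hcon
    push Not at hcon
    exact hv (max_eq_right hcon)
  rw [rt_degree_eq_sum hx _ s hsub]
  have h1 : ∑ v ∈ s, rt_zeroDiv hx z v = ∑ v ∈ s, v.ord z := by
    refine Finset.sum_congr rfl fun v hv => ?_
    rw [hs, Set.Finite.mem_toFinset] at hv
    have hv' : 0 < v.ord z := hv
    rw [rt_zeroDiv_apply, max_eq_left hv'.le]
  rw [h1]
  refine rt_sum_ord_le hx hz s fun v hv => ?_
  rw [hs, Set.Finite.mem_toFinset] at hv
  exact hv

/-- `deg (z)_∞ ≤ [F : K(z)]`. -/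
theorem rt_degree_poleDiv_le {z : F} (hz : Transcendental K z) :
    Divisor.degree (rt_poleDiv hx z) ≤ (Module.finrank K⟮z⟯ F : ℤ) := by
  have hz' : Transcendental K z⁻¹ := by
    intro h
    apply hz
    have := h.inv
    rwa [inv_inv] at this
  have h := rt_degree_zeroDiv_le hx hz'
  rw [rt_zeroDiv_inv] at h
  have e : Module.finrank K⟮z⁻¹⟯ F = Module.finrank K⟮z⟯ F := by
    rw [rt_adjoin_inv]
  rwa [e] at h

end main

end Fermat.Agent.JT3
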