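import Mathlib
import Fermat.Agent.JT3.Riemann.Degree

/-!
# JT3 / node T0a (Riemann's theorem), part 4: principal divisors have degree zero

`F / K` a function field with a separating generator `x` over an algebraically closed field `K`
(any characteristic).

* `rt_finrank_le_degree_poleDiv`: `[F : K(z)] ≤ deg (z)_∞` (Stichtenoth, Thm. 1.4.11);
* `rt_degree_poleDiv`, `rt_degree_zeroDiv`: `deg (z)_∞ = deg (z)₀ = [F : K(z)]`;
* `rt_degree_div`: `deg (z) = 0`; `rt_hasPrincipalDivisors`;
* `rt_finrank_L_add_div`: `l(D + (z)) = l(D)`; `rt_L_eq_bot_of_degree_neg`.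
-/

set_option autoImplicit false
set_option linter.unusedSectionVars false
set_option linter.style.haveILetI false

namespace Fermat.Agent.JT3

open AlgebraicCurve IntermediateField Polynomial WithZero IsDedekindDomain Fermat.Agent.S24
open scoped IntermediateField.algebraAdjoinAdjoin

universe u v
variable {K : Type u} {F : Type v} [Field K] [Field F] [Algebra K F]

/-- The powers of a transcendental element are linearly independent. -/
theorem rt_linearIndependent_pow {z : F} (hz : Transcendental K z) :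
    LinearIndependent K (fun i : ℕ => z ^ i) := by
  have h := (Polynomial.basisMonomials K).linearIndependent
  have h2 := h.map' (aeval z).toLinearMap
    (LinearMap.ker_eq_bot.mpr (transcendental_iff_injective.mp hz))
  have e : (⇑(aeval z).toLinearMap ∘ ⇑(Polynomial.basisMonomials K)) = fun i : ℕ => z ^ i := by
    funext i
    simp [Polynomial.coe_basisMonomials]
  rwa [e] at h2

section main

variable [IsAlgClosed K] {x : F} (hx : rt_IsSepGen K x)

include hx

/-- For a transcendental `z` with pole divisor `B` there is `C ≥ 0` such that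
`(l + 1) [F : K(z)] ≤ l(l B + C)` for all `l`. -/
theorem rt_exists_pole_bound {z : F} (hz : Transcendental K z) :
    ∃ C : Divisor K F, 0 ≤ C ∧ ∀ l : ℕ, (l + 1) * Module.finrank K⟮z⟯ F ≤
      Module.finrank K (riemannRochSpace (l • rt_poleDiv hx z + C)) := by
  classical
  have hfinx : FiniteDimensional K⟮x⟯ F := hx.2.1
  have hfin : FiniteDimensional K⟮z⟯ F := hw_finiteDimensional_adjoin x hz
  set n := Module.finrank K⟮z⟯ F with hn
  let u : Module.Basis (Fin n) K⟮z⟯ F := Module.finBasis K⟮z⟯ F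
  set B := rt_poleDiv hx z with hB
  set C : Divisor K F := ∑ j : Fin n, rt_poleDiv hx (u j) with hC
  have hB0 : 0 ≤ B := rt_poleDiv_nonneg hx z
  have hC0 : 0 ≤ C := Finset.sum_nonneg fun j _ => rt_poleDiv_nonneg hx (u j)
  have hu0 : ∀ j, u j ≠ 0 := fun j => u.ne_zero j
  have hz0 : z ≠ 0 := by
    rintro rfl
    exact hz isAlgebraic_zero
  refine ⟨C, hC0, fun l => ?_⟩
  set D : Divisor K F := l • B + C with hD
  have hmem : ∀ (i : Fin (l + 1)) (j : Fin n),
      z ^ (i : ℕ) * u j ∈ riemannRochSpace D := by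
    intro i j
    have hne : z ^ (i : ℕ) * u j ≠ 0 := mul_ne_zero (pow_ne_zero _ hz0) (hu0 j)
    rw [rt_mem_L_iff hne]
    intro v
    rw [v.ord_mul (pow_ne_zero _ hz0) (hu0 j), rt_ord_pow, hD, Finsupp.add_apply,
      Finsupp.smul_apply, hB, rt_poleDiv_apply, hC, Finsupp.finsetSum_apply]
    have h1 : rt_poleDiv hx (u j) v ≤ ∑ j' : Fin n, rt_poleDiv hx (u j') v :=
      Finset.single_le_sum (f := fun j' => rt_poleDiv hx (u j') v)
        (fun j' _ => Finsupp.le_def.mp (rt_poleDiv_nonneg hx (u j')) v) (Finset.mem_univ j)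
    rw [rt_poleDiv_apply] at h1
    have h2 : -(v.ord (u j)) ≤ max (-v.ord (u j)) 0 := le_max_left _ _
    have h3 : ((i : ℕ) : ℤ) ≤ l := by exact_mod_cast Nat.lt_succ_iff.mp i.2
    have h4 : -(v.ord z) ≤ max (-v.ord z) 0 := le_max_left _ _
    have h5 : 0 ≤ max (-v.ord z) 0 := le_max_right _ _
    have h6 : (0 : ℤ) ≤ ((i : ℕ) : ℤ) := Int.natCast_nonneg _
    simp only [nsmul_eq_mul]
    nlinarith
  have hpow : LinearIndependent K (fun i : ℕ => (AdjoinSimple.gen K z) ^ i) := by
    apply LinearIndependent.of_comp K⟮z⟯.val.toLinearMap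
    have h := rt_linearIndependent_pow hz
    have e : (⇑K⟮z⟯.val.toLinearMap ∘ fun i : ℕ => (AdjoinSimple.gen K z) ^ i) =
        fun i : ℕ => z ^ i := by
      funext i
      simp
    rwa [e]
  have hLI0 := linearIndependent_smul hpow u.linearIndependent
  have hLI1 : LinearIndependent K
      (fun p : Fin (l + 1) × Fin n => z ^ (p.1 : ℕ) * u p.2) := by
    have h := hLI0.comp (fun p : Fin (l + 1) × Fin n => (((p.1 : ℕ), p.2) : ℕ × Fin n))
      (by
        intro p q hpq
        simp only [Prod.mk.injEq] at hpq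
        exact Prod.ext (Fin.ext hpq.1) hpq.2)
    have e : ((fun p : ℕ × Fin n => (AdjoinSimple.gen K z) ^ p.1 • u p.2) ∘
        fun p : Fin (l + 1) × Fin n => (((p.1 : ℕ), p.2) : ℕ × Fin n)) =
        fun p : Fin (l + 1) × Fin n => z ^ (p.1 : ℕ) * u p.2 := by
      funext p
      simp [IntermediateField.smul_def]
    rwa [e] at h
  let w : Fin (l + 1) × Fin n → ↥(riemannRochSpace D) :=
    fun p => ⟨z ^ (p.1 : ℕ) * u p.2, hmem p.1 p.2⟩
  have hLI2 : LinearIndependent K w :=
    LinearIndependent.of_comp (riemannRochSpace D).subtype hLI1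
  have hfinD := rt_L_finite hx D
  have hcard := hLI2.fintype_card_le_finrank
  rwa [Fintype.card_prod, Fintype.card_fin, Fintype.card_fin] at hcard

/-- **Stichtenoth, Thm. 1.4.11 (`≥`)**: `[F : K(z)] ≤ deg (z)_∞`. -/
theorem rt_finrank_le_degree_poleDiv {z : F} (hz : Transcendental K z) :
    (Module.finrank K⟮z⟯ F : ℤ) ≤ Divisor.degree (rt_poleDiv hx z) := by
  obtain ⟨C, hC0, hC⟩ := rt_exists_pole_bound hx hz
  set n := Module.finrank K⟮z⟯ F with hn
  set B := rt_poleDiv hx z with hB
  have hB0 : 0 ≤ B := rt_poleDiv_nonneg hx z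
  have key : ∀ l : ℕ, (((l : ℤ) + 1) * n : ℤ) ≤
      l * Divisor.degree B + Divisor.degree C + 1 := by
    intro l
    have hD0 : 0 ≤ l • B + C := add_nonneg (nsmul_nonneg hB0 l) hC0
    have hle := rt_l_le_deg_add_one hx hD0
    rw [map_add, map_nsmul, nsmul_eq_mul] at hle
    have hcard' : (((l : ℤ) + 1) * n : ℤ) ≤
        (Module.finrank K ↥(riemannRochSpace (l • B + C)) : ℤ) := by
      exact_mod_cast hC l
    linarith
  have hdB : 0 ≤ Divisor.degree B := rt_degree_nonneg hx hB0
  have hdC : 0 ≤ Divisor.degree C := rt_degree_nonneg hx hC0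
  by_contra hcon
  push Not at hcon
  obtain ⟨l, hl⟩ := Int.eq_ofNat_of_zero_le hdC
  have := key (l + 1)
  push_cast at this
  nlinarith

/-- `deg (z)_∞ = [F : K(z)]`. -/
theorem rt_degree_poleDiv {z : F} (hz : Transcendental K z) :
    Divisor.degree (rt_poleDiv hx z) = (Module.finrank K⟮z⟯ F : ℤ) :=
  le_antisymm (rt_degree_poleDiv_le hx hz) (rt_finrank_le_degree_poleDiv hx hz)

/-- `deg (z)₀ = [F : K(z)]`. -/
theorem rt_degree_zeroDiv {z : F} (hz : Transcendental K z) :
    Divisor.degree (rt_zeroDiv hx z) = (Module.finrank K⟮z⟯ F : ℤ) := by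
  have hz' : Transcendental K z⁻¹ := by
    intro h
    apply hz
    have := h.inv
    rwa [inv_inv] at this
  have h := rt_degree_poleDiv hx hz'
  rw [rt_poleDiv_inv] at h
  have e : Module.finrank K⟮z⁻¹⟯ F = Module.finrank K⟮z⟯ F := by
    rw [rt_adjoin_inv]
  rwa [e] at h

/-- **Principal divisors have degree zero.** -/
theorem rt_degree_div (z : F) : Divisor.degree (rt_div hx z) = 0 := by
  rcases hw_const_or_transcendental (K := K) z with ⟨c, rfl⟩ | hz
  · rw [rt_div_algebraMap, map_zero]
  · rw [rt_div_eq_sub, map_sub, rt_degree_zeroDiv hx hz, rt_degree_poleDiv hx hz, sub_self]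

theorem rt_eq_div_of_forall {D : Divisor K F} {f : F} (h : ∀ v : Place K F, D v = v.ord f) :
    D = rt_div hx f := by
  ext v
  rw [h v, rt_div_apply]

theorem rt_degree_of_isPrincipal {D : Divisor K F} (h : Divisor.IsPrincipal D) :
    Divisor.degree D = 0 := by
  obtain ⟨f, -, hf⟩ := h
  rw [rt_eq_div_of_forall hx hf, rt_degree_div]

/-- The prelude's class `HasPrincipalDivisors`, in any characteristic. -/
theorem rt_hasPrincipalDivisors : HasPrincipalDivisors K F :=
  ⟨fun f _ => ⟨rt_div hx f, fun _ => rfl, rt_degree_div hx f⟩⟩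

/-! ### Linear equivalence -/

theorem rt_mem_L_add_div_iff (D : Divisor K F) {z : F} (hz0 : z ≠ 0) {f : F} :
    f ∈ riemannRochSpace (D + rt_div hx z) ↔ f * z ∈ riemannRochSpace D := by
  rcases eq_or_ne f 0 with rfl | hf
  · simp
  · rw [rt_mem_L_iff hf, rt_mem_L_iff (mul_ne_zero hf hz0)]
    refine forall_congr' fun v => ?_
    rw [Finsupp.add_apply, rt_div_apply, v.ord_mul hf hz0]
    constructor <;> intro h <;> omega

/-- `l(D + (z)) = l(D)`. -/
theorem rt_finrank_L_add_div (D : Divisor K F) {z : F} (hz0 : z ≠ 0) :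
    Module.finrank K (riemannRochSpace (D + rt_div hx z)) =
      Module.finrank K (riemannRochSpace D) := by
  let e : F ≃ₗ[K] F := LinearEquiv.ofLinearMap (LinearMap.mulRight K z) (LinearMap.mulRight K z⁻¹)
    (by ext f; simp [hz0]) (by ext f; simp [hz0])
  have hmap : (riemannRochSpace (D + rt_div hx z)).map (e : F →ₗ[K] F) = riemannRochSpace D := by
    ext f
    rw [Submodule.mem_map]
    constructor
    · rintro ⟨f', hf', rfl⟩
      exact (rt_mem_L_add_div_iff hx D hz0).mp hf'
    · intro hf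
      refine ⟨f * z⁻¹, (rt_mem_L_add_div_iff hx D hz0).mpr ?_, ?_⟩
      · rwa [mul_assoc, inv_mul_cancel₀ hz0, mul_one]
      · show f * z⁻¹ * z = f
        rw [mul_assoc, inv_mul_cancel₀ hz0, mul_one]
  rw [← hmap]
  exact (LinearEquiv.finrank_map_eq e _).symm

/-- A divisor of negative degree has `L(D) = 0`. -/
theorem rt_L_eq_bot_of_degree_neg {D : Divisor K F} (h : Divisor.degree D < 0) :
    riemannRochSpace D = ⊥ := by
  rw [eq_bot_iff]
  intro f hf
  rw [Submodule.mem_bot]
  by_contra hf0
  have h1 : 0 ≤ D + rt_div hx f := by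
    rw [Finsupp.le_def]
    intro v
    have := (rt_mem_L_iff hf0).mp hf v
    rw [Finsupp.zero_apply, Finsupp.add_apply, rt_div_apply]
    omega
  have h2 := rt_degree_nonneg hx h1
  rw [map_add, rt_degree_div, add_zero] at h2
  omega

theorem rt_finrank_L_of_degree_neg {D : Divisor K F} (h : Divisor.degree D < 0) :
    Module.finrank K (riemannRochSpace D) = 0 := by
  rw [rt_L_eq_bot_of_degree_neg hx h]
  exact finrank_bot K F

end main

end Fermat.Agent.JT3
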