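import Mathlib
import Fermat.Agent.JT3.Riemann.Principal

/-!
# JT3 / node T0a: Riemann's theorem, in any characteristic

`F / K` a function field with a separating generator `x` over an algebraically closed field `K`.

* `rt_exists_bound`: `deg A - l(A)` is bounded above (Stichtenoth, Prop. 1.4.14);
* `rt_exists_genus`: the genus `g = max (deg A - l(A) + 1)`;
* `rt_riemann_ineq`: `l(D) ≥ deg D + 1 - g`;
* `rt_riemann`: `l(D) = deg D + 1 - g` for `deg D ≥ c` (Stichtenoth, Thm. 1.4.17).
-/

set_option autoImplicit false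
set_option linter.unusedSectionVars false
set_option linter.style.haveILetI false

namespace Fermat.Agent.JT3

open AlgebraicCurve IntermediateField Polynomial WithZero IsDedekindDomain Fermat.Agent.S24

universe u v
variable {K : Type u} {F : Type v} [Field K] [Field F] [Algebra K F]

section main

variable [IsAlgClosed K] {x : F} (hx : rt_IsSepGen K x)

include hx

/-- **Stichtenoth, Prop. 1.4.14**: `deg A - l(A)` is bounded above. -/
theorem rt_exists_bound :
    ∃ γ : ℤ, ∀ A : Divisor K F,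
      Divisor.degree A - (Module.finrank K ↥(riemannRochSpace A) : ℤ) ≤ γ := by
  classical
  have hfinx : FiniteDimensional K⟮x⟯ F := hx.2.1
  obtain ⟨C, hC0, hC⟩ := rt_exists_pole_bound hx hx.1
  set n := Module.finrank K⟮x⟯ F with hn
  have hn1 : 1 ≤ n := Module.finrank_pos
  set B := rt_poleDiv hx x with hB
  have hB0 : 0 ≤ B := rt_poleDiv_nonneg hx x
  have hdegB : Divisor.degree B = n := rt_degree_poleDiv hx hx.1
  -- the bound along the multiples of `B`
  have hlB : ∀ l : ℕ, Divisor.degree (l • B) -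
      (Module.finrank K ↥(riemannRochSpace (l • B)) : ℤ) ≤ Divisor.degree C - n := by
    intro l
    have h1 : l • B ≤ l • B + C := le_add_of_nonneg_right hC0
    have h2 := rt_l_le_of_le hx h1
    have h3 : (((l : ℤ) + 1) * n : ℤ) ≤
        (Module.finrank K ↥(riemannRochSpace (l • B + C)) : ℤ) := by
      exact_mod_cast hC l
    rw [map_add, map_nsmul, nsmul_eq_mul, hdegB] at h2
    rw [map_nsmul, nsmul_eq_mul, hdegB]
    linarith
  refine ⟨Divisor.degree C - n, fun A => ?_⟩
  set A₁ : Divisor K F := A ⊔ 0 with hA₁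
  have hAA₁ : A ≤ A₁ := le_sup_left
  have hA₁0 : 0 ≤ A₁ := le_sup_right
  have hdA₁ : 0 ≤ Divisor.degree A₁ := rt_degree_nonneg hx hA₁0
  -- choose `l` large
  set γ := Divisor.degree C - n with hγ
  obtain ⟨l, hl⟩ : ∃ l : ℕ, γ + Divisor.degree A₁ + 1 ≤ (l : ℤ) :=
    ⟨(γ + Divisor.degree A₁ + 1).toNat, Int.self_le_toNat _⟩
  -- `L(lB - A₁) ≠ 0`
  have h4 : l • B - A₁ ≤ l • B := sub_le_self _ hA₁0
  have h5 := rt_l_le_of_le hx h4
  have h6 := hlB l
  rw [map_sub, map_nsmul, nsmul_eq_mul, hdegB] at h5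
  rw [map_nsmul, nsmul_eq_mul, hdegB] at h6
  have hpos : 0 < Module.finrank K ↥(riemannRochSpace (l • B - A₁)) := by
    have : (0 : ℤ) < (Module.finrank K ↥(riemannRochSpace (l • B - A₁)) : ℤ) := by
      have : (l : ℤ) ≤ l * n := by
        have : (1 : ℤ) ≤ n := by exact_mod_cast hn1
        nlinarith [Int.natCast_nonneg l]
      linarith
    exact_mod_cast this
  have hfinL := rt_L_finite hx (l • B - A₁)
  obtain ⟨⟨z, hzmem⟩, hz0'⟩ := Module.finrank_pos_iff_exists_ne_zero.mp hpos
  have hz0 : z ≠ 0 := fun h => hz0' (Subtype.ext h)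
  -- `D = A₁ - (z) ≤ lB`
  set D : Divisor K F := A₁ + rt_div hx z⁻¹ with hD
  have hDle : D ≤ l • B := by
    rw [Finsupp.le_def]
    intro v
    have := (rt_mem_L_iff hz0).mp hzmem v
    rw [Finsupp.sub_apply] at this
    rw [hD, Finsupp.add_apply, rt_div_apply, v.ord_inv]
    omega
  have hdegD : Divisor.degree D = Divisor.degree A₁ := by
    rw [hD, map_add, rt_degree_div, add_zero]
  have hlD : Module.finrank K ↥(riemannRochSpace D) =
      Module.finrank K ↥(riemannRochSpace A₁) :=
    rt_finrank_L_add_div hx A₁ (inv_ne_zero hz0)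
  have h7 := rt_l_le_of_le hx hAA₁
  have h8 := rt_l_le_of_le hx hDle
  rw [hlD, hdegD, map_nsmul, nsmul_eq_mul, hdegB] at h8
  linarith

/-- The genus: the maximum of `deg A - l(A) + 1`. -/
theorem rt_exists_genus :
    ∃ g : ℕ, (∀ A : Divisor K F,
        Divisor.degree A + 1 - g ≤ (Module.finrank K ↥(riemannRochSpace A) : ℤ)) ∧
      ∃ A₀ : Divisor K F,
        Divisor.degree A₀ + 1 - g = (Module.finrank K ↥(riemannRochSpace A₀) : ℤ) := by
  obtain ⟨γ, hγ⟩ := rt_exists_bound hx
  let P : ℤ → Prop := fun k => ∃ A : Divisor K F,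
    Divisor.degree A - (Module.finrank K ↥(riemannRochSpace A) : ℤ) + 1 = k
  have hbdd : ∃ b : ℤ, ∀ k, P k → k ≤ b := by
    refine ⟨γ + 1, ?_⟩
    rintro k ⟨A, rfl⟩
    have := hγ A
    linarith
  have hP0 : P 0 := by
    refine ⟨0, ?_⟩
    rw [map_zero, rt_finrank_L_zero hx]
    norm_num
  obtain ⟨g, ⟨A₀, hA₀⟩, hmax⟩ := Int.exists_greatest_of_bdd hbdd ⟨0, hP0⟩
  have hg0 : 0 ≤ g := hmax 0 hP0
  obtain ⟨g', rfl⟩ := Int.eq_ofNat_of_zero_le hg0
  refine ⟨g', fun A => ?_, A₀, ?_⟩
  · have := hmax _ ⟨A, rfl⟩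
    linarith
  · linarith

/-- **Riemann's inequality.** -/
theorem rt_riemann_ineq :
    ∃ g : ℕ, ∀ D : Divisor K F,
      Divisor.degree D + 1 - g ≤ (Module.finrank K ↥(riemannRochSpace D) : ℤ) := by
  obtain ⟨g, hg, -⟩ := rt_exists_genus hx
  exact ⟨g, hg⟩

/-- **Riemann's theorem** (Stichtenoth, Thm. 1.4.17). -/
theorem rt_riemann :
    ∃ (g : ℕ) (c : ℤ), ∀ D : Divisor K F, Module.Finite K ↥(riemannRochSpace D) ∧
      (c ≤ Divisor.degree D →
        (Module.finrank K ↥(riemannRochSpace D) : ℤ) = Divisor.degree D + 1 - g) := by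
  obtain ⟨g, hg, A₀, hA₀⟩ := rt_exists_genus hx
  refine ⟨g, Divisor.degree A₀ + g, fun D => ⟨rt_L_finite hx D, fun hD => ?_⟩⟩
  apply le_antisymm _ (hg D)
  -- `L(D - A₀) ≠ 0`
  have h1 := hg (D - A₀)
  rw [map_sub] at h1
  have hpos : 0 < Module.finrank K ↥(riemannRochSpace (D - A₀)) := by
    have : (0 : ℤ) < (Module.finrank K ↥(riemannRochSpace (D - A₀)) : ℤ) := by linarith
    exact_mod_cast this
  have hfinL := rt_L_finite hx (D - A₀)
  obtain ⟨⟨z, hzmem⟩, hz0'⟩ := Module.finrank_pos_iff_exists_ne_zero.mp hpos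
  have hz0 : z ≠ 0 := fun h => hz0' (Subtype.ext h)
  -- `D' = D + (z) ≥ A₀`
  set D' : Divisor K F := D + rt_div hx z with hD'
  have hle : A₀ ≤ D' := by
    rw [Finsupp.le_def]
    intro v
    have := (rt_mem_L_iff hz0).mp hzmem v
    rw [Finsupp.sub_apply] at this
    rw [hD', Finsupp.add_apply, rt_div_apply]
    omega
  have hdegD' : Divisor.degree D' = Divisor.degree D := by
    rw [hD', map_add, rt_degree_div, add_zero]
  have hlD' : Module.finrank K ↥(riemannRochSpace D') =
      Module.finrank K ↥(riemannRochSpace D) := rt_finrank_L_add_div hx D hz0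
  have h2 := rt_l_le_of_le hx hle
  rw [hlD', hdegD'] at h2
  linarith

/-- Every divisor of degree at least `g` is linearly equivalent to an effective divisor. -/
theorem rt_exists_effective :
    ∃ g : ℕ, ∀ E : Divisor K F, (g : ℤ) ≤ Divisor.degree E →
      ∃ D : Divisor K F, 0 ≤ D ∧ Divisor.degree D = Divisor.degree E ∧
        Divisor.IsPrincipal (D - E) := by
  obtain ⟨g, hg⟩ := rt_riemann_ineq hx
  refine ⟨g, fun E hE => ?_⟩
  have h1 := hg E
  have hpos : 0 < Module.finrank K ↥(riemannRochSpace E) := by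
    have : (0 : ℤ) < (Module.finrank K ↥(riemannRochSpace E) : ℤ) := by linarith
    exact_mod_cast this
  have hfinL := rt_L_finite hx E
  obtain ⟨⟨z, hzmem⟩, hz0'⟩ := Module.finrank_pos_iff_exists_ne_zero.mp hpos
  have hz0 : z ≠ 0 := fun h => hz0' (Subtype.ext h)
  refine ⟨E + rt_div hx z, ?_, ?_, ?_⟩
  · rw [Finsupp.le_def]
    intro v
    have := (rt_mem_L_iff hz0).mp hzmem v
    rw [Finsupp.zero_apply, Finsupp.add_apply, rt_div_apply]
    omega
  · rw [map_add, rt_degree_div, add_zero]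
  · rw [add_sub_cancel_left]
    exact rt_div_isPrincipal hx hz0

end main

/-! ### Characteristic zero: every generator is separating -/

section charZero

open scoped IntermediateField.algebraAdjoinAdjoin

variable [CharZero K]

theorem rt_isSepGen_of_charZero {x : F} (hx : Transcendental K x) [FiniteDimensional K⟮x⟯ F] :
    rt_IsSepGen K x := by
  haveI : CharZero F := charZero_of_injective_algebraMap (algebraMap K F).injective
  haveI : CharZero K⟮x⟯ := charZero_of_injective_algebraMap (algebraMap K K⟮x⟯).injective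
  exact ⟨hx, inferInstance, inferInstance⟩

end charZero

end Fermat.Agent.JT3
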