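import Fermat.Agent.JT3.Riemann.Main
import Fermat.Agent.S24.Bridge.Degree

/-!
# JT3 / node T0a: Riemann's theorem for the function field of `X₀(N)` over `ℚ̄`

The instance of `Riemann/Main.lean` for `Fbar N = modularFunctionFieldBar N` over `ℚ̄`, with the
separating generator `j` (`br_jBar N`).
-/

set_option autoImplicit false

namespace Fermat.Agent.JT3

open AlgebraicCurve Fermat.Agent.S24

variable (N : ℕ) [NeZero N]

/-- `j` is a separating generator of `Fbar N` over `ℚ̄`. -/
theorem rt_isSepGen_jBar : rt_IsSepGen Kbar (br_jBar N) :=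
  rt_isSepGen_of_charZero (br_jBar_transcendental N)

/-- **Riemann's theorem** for `X₀(N)` over `ℚ̄`. -/
theorem rt_riemann_fbar :
    ∃ (g : ℕ) (c : ℤ), ∀ D : Divisor Kbar (Fbar N), Module.Finite Kbar ↥(riemannRochSpace D) ∧
      (c ≤ Divisor.degree D →
        (Module.finrank Kbar ↥(riemannRochSpace D) : ℤ) = Divisor.degree D + 1 - g) :=
  rt_riemann (rt_isSepGen_jBar N)

/-- **Riemann's inequality** for `X₀(N)` over `ℚ̄`. -/
theorem rt_riemann_ineq_fbar :
    ∃ g : ℕ, ∀ D : Divisor Kbar (Fbar N),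
      Divisor.degree D + 1 - g ≤ (Module.finrank Kbar ↥(riemannRochSpace D) : ℤ) :=
  rt_riemann_ineq (rt_isSepGen_jBar N)

/-- Every divisor of degree at least `g` on `X₀(N)` over `ℚ̄` is linearly equivalent to an
effective divisor. -/
theorem rt_exists_effective_fbar :
    ∃ g : ℕ, ∀ E : Divisor Kbar (Fbar N), (g : ℤ) ≤ Divisor.degree E →
      ∃ D : Divisor Kbar (Fbar N), 0 ≤ D ∧ Divisor.degree D = Divisor.degree E ∧
        Divisor.IsPrincipal (D - E) :=
  rt_exists_effective (rt_isSepGen_jBar N)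

theorem rt_hasPrincipalDivisors_fbar : HasPrincipalDivisors Kbar (Fbar N) :=
  rt_hasPrincipalDivisors (rt_isSepGen_jBar N)

theorem rt_L_finite_fbar (D : Divisor Kbar (Fbar N)) :
    Module.Finite Kbar ↥(riemannRochSpace D) :=
  rt_L_finite (rt_isSepGen_jBar N) D

end Fermat.Agent.JT3
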